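import Fermat.Agent.S55.HQ.Chevalley

/-!
# S55-LOC (ALG layer) : Chevalley's formula + Hilbert 90 for a cyclic extension of prime degree
-/

namespace Fermat.Agent.S55.LOC

open Fermat.Agent.S55.HQ

section general

variable (X : Type*) [CommGroup X]

theorem Cyclic_hnum_mulN_left (p : ℕ) :
    hnum 0 (mulN (Additive X) p) = (powMonoidHom p : X →* X).range.index := by
  rw [hnum_zero_left, ← Subgroup.index_toAddSubgroup]
  congr 1

theorem Cyclic_hnum_mulN_right (p : ℕ) :
    hnum (mulN (Additive X) p) 0 = Nat.card (powMonoidHom p : X →* X).ker := by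
  rw [hnum_zero_right]
  exact Nat.card_congr (Equiv.subtypeEquiv Additive.toMul (fun a => Iff.rfl))

end general

section hilbert

variable {F E : Type*} [Field F] [Field E] [Algebra F E]

/-- Hilbert 90 for an automorphism `σ` with `σ^p = 1` whose first `p` powers are distinct. -/
theorem Cyclic_hilbert90 (σ : E ≃ₐ[F] E) (p : ℕ) (hp : 0 < p) (hσ : orderOf σ = p) (x : E)
    (hx : ∏ i ∈ Finset.range p, (σ ^ i) x = 1) : ∃ y : E, y ≠ 0 ∧ x * σ y = y := by
  classical
  set c : ℕ → E := fun i => ∏ j ∈ Finset.range i, (σ ^ j) x with hc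
  have hc0 : c 0 = 1 := by simp [hc]
  have hcs : ∀ i, x * σ (c i) = c (i + 1) := by
    intro i
    simp only [hc]
    rw [Finset.prod_range_succ', map_prod, pow_zero, AlgEquiv.one_apply, mul_comm]
    congr 1
    refine Finset.prod_congr rfl fun j _ => ?_
    rw [pow_succ', AlgEquiv.mul_apply]
  have hpow : σ ^ p = 1 := hσ ▸ pow_orderOf_eq_one σ
  have hstep : ∀ θ : E, x * σ (∑ i ∈ Finset.range p, c i * (σ ^ i) θ) =
      ∑ i ∈ Finset.range p, c i * (σ ^ i) θ := by
    intro θ
    have h1 : x * σ (∑ i ∈ Finset.range p, c i * (σ ^ i) θ) =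
        ∑ i ∈ Finset.range p, c (i + 1) * (σ ^ (i + 1)) θ := by
      rw [map_sum, Finset.mul_sum]
      refine Finset.sum_congr rfl fun i _ => ?_
      rw [map_mul, ← mul_assoc, hcs, pow_succ', AlgEquiv.mul_apply]
    have h2 := Finset.sum_range_succ' (fun i => c i * (σ ^ i) θ) p
    have h3 := Finset.sum_range_succ (fun i => c i * (σ ^ i) θ) p
    have hcp : c p = 1 := hx
    rw [h1]
    rw [h3, hcp, hpow, hc0, pow_zero] at h2
    exact (add_right_cancel h2).symm
  have hli : LinearIndependent E (fun i : Fin p => (((σ ^ (i : ℕ) : E ≃ₐ[F] E) : E →* E) : E → E)) := by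
    have := linearIndependent_monoidHom E E
    refine this.comp (fun i : Fin p => ((σ ^ (i : ℕ) : E ≃ₐ[F] E) : E →* E)) ?_
    intro i j hij
    have h4 : σ ^ (i : ℕ) = σ ^ (j : ℕ) := by
      ext z
      exact DFunLike.congr_fun hij z
    have := pow_injOn_Iio_orderOf (x := σ) (by simp [hσ]) (by simp [hσ]) h4
    exact Fin.ext this
  by_contra hcon
  push Not at hcon
  have hzero : ∀ θ : E, ∑ i ∈ Finset.range p, c i * (σ ^ i) θ = 0 := by
    intro θ
    by_contra hne
    exact hcon _ hne (hstep θ)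
  have h5 : ∑ i : Fin p, c i • (((σ ^ (i : ℕ) : E ≃ₐ[F] E) : E →* E) : E → E) = 0 := by
    funext θ
    have := hzero θ
    rw [← Fin.sum_univ_eq_sum_range (fun i => c i * (σ ^ i) θ) p] at this
    simpa using this
  have h6 := Fintype.linearIndependent_iff.1 hli (fun i => c i) h5 ⟨0, hp⟩
  simp only [hc0] at h6
  exact one_ne_zero h6

end hilbert

variable (F E : Type*) [Field F] [Field E] [Algebra F E] [FiniteDimensional F E] [IsGalois F E]

/-- If `E/F` is Galois of prime degree `p` and `[Eˣ:Eˣ^p]` is finite, then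
`[Fˣ : N Eˣ]^(p-1) = q(Fˣ)^p / q(Eˣ)`, `q(X) = [X:X^p]/#X[p]`, written without division.
[`HQ.chevalley` for `A = Additive Eˣ`, `s` = a generator of `Gal(E/F)`;
`ker(s-1) = Fˣ`, `N` = norm, `ker N = im (s-1)` by Hilbert 90.] -/
theorem norm_index_pow (p : ℕ) (hp : p.Prime) (hdeg : Module.finrank F E = p)
    (hE : (powMonoidHom p : Eˣ →* Eˣ).range.index ≠ 0) :
    (Units.map (Algebra.norm F : E →* F)).range.index ^ (p - 1) *
        (powMonoidHom p : Eˣ →* Eˣ).range.index *
        Nat.card (powMonoidHom p : Fˣ →* Fˣ).ker ^ p =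
      (powMonoidHom p : Fˣ →* Fˣ).range.index ^ p *
        Nat.card (powMonoidHom p : Eˣ →* Eˣ).ker := by
  classical
  have : Fact p.Prime := ⟨hp⟩
  have hcard : Nat.card (E ≃ₐ[F] E) = p := by rw [IsGalois.card_aut_eq_finrank, hdeg]
  have : IsCyclic (E ≃ₐ[F] E) := isCyclic_of_prime_card hcard
  obtain ⟨σ, hgen⟩ := IsCyclic.exists_generator (α := E ≃ₐ[F] E)
  have hord : orderOf σ = p := by rw [orderOf_eq_card_of_forall_mem_zpowers hgen, hcard]
  have hpow : σ ^ p = 1 := hord ▸ pow_orderOf_eq_one σ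
  -- the module
  let s : Additive Eˣ →+ Additive Eˣ := MonoidHom.toAdditive (Units.map (σ : E →* E))
  have hs_iter : ∀ (i : ℕ) (x : Additive Eˣ),
      ((s^[i] x).toMul : E) = (σ ^ i) (x.toMul : E) := by
    intro i
    induction i with
    | zero => intro x; simp
    | succ i ih =>
      intro x
      rw [Function.iterate_succ_apply', pow_succ', AlgEquiv.mul_apply, ← ih]
      rfl
  have hs : ∀ x, s^[p] x = x := by
    intro x
    apply Additive.toMul.injective
    apply Units.ext
    rw [hs_iter, hpow, AlgEquiv.one_apply]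
  have hfin : Finite (powMonoidHom p : Eˣ →* Eˣ).ker := by
    have : NeZero p := ⟨hp.ne_zero⟩
    have h : (powMonoidHom p : Eˣ →* Eˣ).ker = rootsOfUnity p E := by
      ext x
      simp [MonoidHom.mem_ker, mem_rootsOfUnity]
    rw [h]
    infer_instance
  have hA : HQDefined 0 (mulN (Additive Eˣ) p) := by
    refine ⟨by rw [Cyclic_hnum_mulN_left]; exact hE, ?_⟩
    rw [Cyclic_hnum_mulN_right]
    exact Nat.card_pos.ne'
  obtain ⟨hd1, hd2, hform⟩ := chevalley p s hs hA
  let ι : Additive Fˣ →+ Additive Eˣ :=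
    MonoidHom.toAdditive (Units.map (algebraMap F E : F →* E))
  have hι_inj : Function.Injective ι := by
    intro a b hab
    apply Additive.toMul.injective
    apply Units.ext
    have h : ((ι a).toMul : E) = ((ι b).toMul : E) := by rw [hab]
    exact (algebraMap F E).injective h
  have hι_range : ι.range = (sm1 s).ker := by
    ext x
    constructor
    · rintro ⟨a, rfl⟩
      rw [AddMonoidHom.mem_ker, sm1_apply, sub_eq_zero]
      apply Additive.toMul.injective
      apply Units.ext
      exact σ.commutes _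
    · intro hx
      rw [AddMonoidHom.mem_ker, sm1_apply, sub_eq_zero] at hx
      have hx' : σ (x.toMul : E) = (x.toMul : E) := congrArg (fun y => ((y.toMul : Eˣ) : E)) hx
      have hfix : ∀ τ : E ≃ₐ[F] E, τ (x.toMul : E) = (x.toMul : E) := by
        intro τ
        have hle : Subgroup.zpowers σ ≤ MulAction.stabilizer (E ≃ₐ[F] E) (x.toMul : E) := by
          rw [Subgroup.zpowers_le]
          exact hx'
        exact hle (hgen τ)
      obtain ⟨a, ha⟩ := (IsGalois.mem_range_algebraMap_iff_fixed (F := F) (x.toMul : E)).2 hfix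
      have ha0 : a ≠ 0 := by
        rintro rfl
        rw [map_zero] at ha
        exact x.toMul.ne_zero ha.symm
      refine ⟨Additive.ofMul (Units.mk0 a ha0), ?_⟩
      apply Additive.toMul.injective
      apply Units.ext
      exact ha
  have hprod : ∀ z : E, ∏ τ : E ≃ₐ[F] E, τ z = ∏ i ∈ Finset.range p, (σ ^ i) z := by
    intro z
    rw [← IsCyclic.image_range_orderOf hgen, hord, Finset.prod_image]
    intro i hi j hj hij
    exact pow_injOn_Iio_orderOf (x := σ) (by simpa [hord] using hi) (by simpa [hord] using hj) hij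
  have hnrm_coe : ∀ x : Additive Eˣ,
      ((nrm p s x).toMul : E) = ∏ i ∈ Finset.range p, (σ ^ i) (x.toMul : E) := by
    intro x
    rw [nrm_apply, toMul_sum, Units.coe_prod]
    exact Finset.prod_congr rfl fun i _ => hs_iter i x
  have hnrm : ∀ x : Additive Eˣ, nrm p s x =
      ι (Additive.ofMul (Units.map (Algebra.norm F : E →* F) x.toMul)) := by
    intro x
    apply Additive.toMul.injective
    apply Units.ext
    rw [hnrm_coe, ← hprod, ← Algebra.norm_eq_prod_automorphisms]
    rfl
  have h1 : hnum (sm1 s) (nrm p s) = (Units.map (Algebra.norm F : E →* F)).range.index := by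
    have hr : (nrm p s).range =
        (Subgroup.toAddSubgroup (Units.map (Algebra.norm F : E →* F)).range).map ι := by
      ext y
      constructor
      · rintro ⟨x, rfl⟩
        exact ⟨_, ⟨x.toMul, rfl⟩, (hnrm x).symm⟩
      · rintro ⟨_, ⟨x, rfl⟩, rfl⟩
        exact ⟨Additive.ofMul x, hnrm _⟩
    rw [hnum, hr, ← hι_range, AddMonoidHom.range_eq_map,
      AddSubgroup.relIndex_map_map_of_injective _ _ hι_inj, AddSubgroup.relIndex_top_right,
      Subgroup.index_toAddSubgroup]
  have h2 : hnum (nrm p s) (sm1 s) = 1 := by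
    rw [hnum, AddSubgroup.relIndex_eq_one]
    intro x hx
    rw [AddMonoidHom.mem_ker] at hx
    have hx1 : ∏ i ∈ Finset.range p, (σ ^ i) (x.toMul : E) = 1 := by
      rw [← hnrm_coe, hx]
      rfl
    obtain ⟨y, hy0, hy⟩ := Cyclic_hilbert90 σ p hp.pos hord _ hx1
    refine ⟨Additive.ofMul (Units.mk0 y hy0)⁻¹, ?_⟩
    rw [sm1_apply, sub_eq_iff_eq_add]
    apply Additive.toMul.injective
    apply Units.ext
    change σ (y⁻¹) = (x.toMul : E) * y⁻¹
    have hσy : σ y ≠ 0 := (map_ne_zero σ).2 hy0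
    rw [map_inv₀]
    nth_rewrite 2 [← hy]
    rw [mul_inv, ← mul_assoc, mul_inv_cancel₀ x.toMul.ne_zero, one_mul]
  let e : Additive Fˣ ≃+ (sm1 s).ker :=
    AddEquiv.ofBijective (ι.codRestrict (sm1 s).ker (fun x => by rw [← hι_range]; exact ⟨x, rfl⟩))
      ⟨fun a b hab => hι_inj (congrArg Subtype.val hab), fun y => by
        obtain ⟨a, ha⟩ : (y : Additive Eˣ) ∈ ι.range := by rw [hι_range]; exact y.2
        exact ⟨a, Subtype.ext ha⟩⟩
  obtain ⟨h3, h4⟩ := hq_congr e 0 (mulN (Additive Fˣ) p) 0 (mulN (sm1 s).ker p)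
    (fun x => by simp) (fun x => by simp [map_nsmul])
  rw [Cyclic_hnum_mulN_left] at h3
  rw [Cyclic_hnum_mulN_right] at h4
  have hE' := hA.2
  rw [Cyclic_hnum_mulN_right] at hE'
  have hF1 := hd2.1
  have hF2 := hd2.2
  rw [← h3] at hF1
  rw [← h4] at hF2
  rw [hq, hq, hq, h1, h2, ← h3, ← h4, Cyclic_hnum_mulN_left, Cyclic_hnum_mulN_right] at hform
  have hE1 : ((powMonoidHom p : Eˣ →* Eˣ).range.index : ℚ) ≠ 0 := by exact_mod_cast hE
  have hE2 : (Nat.card (powMonoidHom p : Eˣ →* Eˣ).ker : ℚ) ≠ 0 := by exact_mod_cast hE'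
  have hF1' : ((powMonoidHom p : Fˣ →* Fˣ).range.index : ℚ) ≠ 0 := by exact_mod_cast hF1
  have hF2' : (Nat.card (powMonoidHom p : Fˣ →* Fˣ).ker : ℚ) ≠ 0 := by exact_mod_cast hF2
  apply Nat.cast_injective (R := ℚ)
  push_cast
  rw [Nat.cast_one, div_one] at hform
  rw [hform, div_pow]
  field_simp

end Fermat.Agent.S55.LOC
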