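import Mathlib

/-!
# S55-LOC (ALG layer) : the unit filtration `U_n = 1 + 𝔪^n` of a local ring
-/

namespace Fermat.Agent.S55.LOC

open IsLocalRing

variable (O : Type*) [CommRing O] [IsLocalRing O]

/-- `U_n = 1 + 𝔪^n` as a subgroup of `Oˣ` (`U_0 = Oˣ`). -/
def unitFil (n : ℕ) : Subgroup Oˣ :=
  (Units.map (Ideal.Quotient.mk (maximalIdeal O ^ n) : O →* O ⧸ maximalIdeal O ^ n)).ker

variable {O}

theorem mem_unitFil_iff {n : ℕ} {u : Oˣ} :
    u ∈ unitFil O n ↔ (u : O) - 1 ∈ maximalIdeal O ^ n := by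
  rw [unitFil, MonoidHom.mem_ker, Units.ext_iff, ← Ideal.Quotient.eq]
  simp

theorem unitFil_anti {m n : ℕ} (h : m ≤ n) : unitFil O n ≤ unitFil O m := by
  intro u hu
  rw [mem_unitFil_iff] at hu ⊢
  exact Ideal.pow_le_pow_right h hu

/-- every `1 + x`, `x ∈ 𝔪^n`, `1 ≤ n`, is (the value of) an element of `U_n`. -/
theorem exists_unitFil_eq_one_add {n : ℕ} (hn : 1 ≤ n) {x : O} (hx : x ∈ maximalIdeal O ^ n) :
    ∃ u ∈ unitFil O n, (u : O) = 1 + x := by
  have hx1 : x ∈ maximalIdeal O := Ideal.pow_le_self (by omega) hx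
  have hu : IsUnit (1 + x) := by
    by_contra h
    have h1 : (1 + x) ∈ maximalIdeal O := (mem_maximalIdeal _).2 h
    have : (1 : O) ∈ maximalIdeal O := by
      have := (maximalIdeal O).sub_mem h1 hx1
      simp at this
    exact (Ideal.ne_top_iff_one _).1 (maximalIdeal.isMaximal O).ne_top this
  refine ⟨hu.unit, ?_, hu.unit_spec⟩
  rw [mem_unitFil_iff, hu.unit_spec]
  simpa using hx

end Fermat.Agent.S55.LOC
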