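import Mathlib

/-!
# S55-LOC (ALG layer) : `#(O'/aO') = #(O/aO)^[E:F]` for a finite extension `O'` of a DVR `O`
-/

namespace Fermat.Agent.S55.LOC

variable (O F O' E : Type*) [CommRing O] [IsDomain O] [IsDiscreteValuationRing O]
  [Field F] [Algebra O F] [IsFractionRing O F]
  [CommRing O'] [IsDomain O'] [Field E] [Algebra O' E] [IsFractionRing O' E]
  [Algebra O O'] [Algebra F E] [Algebra O E] [IsScalarTower O O' E] [IsScalarTower O F E]
  [Module.Finite O O']

/-- `O'` is free over the PID `O` (finite + torsion free), of rank `[E:F]`. -/
theorem finrank_extension : Module.finrank O O' = Module.finrank F E :=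
  (IsFractionRing.finrank_eq O F O' E).symm

include F E in
theorem Free_algebraMap_injective : Function.Injective (algebraMap O O') := by
  have h1 : Function.Injective (algebraMap O E) := by
    rw [IsScalarTower.algebraMap_eq O F E]
    exact (algebraMap F E).injective.comp (IsFractionRing.injective O F)
  rw [IsScalarTower.algebraMap_eq O O' E] at h1
  exact Function.Injective.of_comp h1

/-- `O'` is free of rank `[E:F]` over the DVR `O`, hence `#(O'/aO') = #(O/aO)^[E:F]`. -/
theorem card_quot_span_extension (a : O) :
    Nat.card (O' ⧸ Ideal.span {algebraMap O O' a}) =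
      Nat.card (O ⧸ Ideal.span {a}) ^ Module.finrank F E := by
  classical
  have hinj := Free_algebraMap_injective O F O' E
  have : FaithfulSMul O O' := (faithfulSMul_iff_algebraMap_injective O O').2 hinj
  have : Module.IsTorsionFree O O' := inferInstance
  have : Module.Free O O' := Module.free_of_finite_type_torsion_free'
  rw [← finrank_extension O F O' E]
  let e : O' ≃ₗ[O] (Fin (Module.finrank O O') → O) := (Module.finBasis O O').equivFun
  have hmap : ((Ideal.span {algebraMap O O' a}).restrictScalars O).map (e : O' →ₗ[O] (Fin (Module.finrank O O') → O)) =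
      Submodule.pi Set.univ (fun _ => Ideal.span {a}) := by
    ext v
    simp only [Submodule.mem_map, Submodule.restrictScalars_mem, Submodule.mem_pi, Set.mem_univ,
      true_implies, Ideal.mem_span_singleton']
    constructor
    · rintro ⟨x, ⟨y, rfl⟩, rfl⟩ i
      refine ⟨e y i, ?_⟩
      have : y * algebraMap O O' a = a • y := by rw [Algebra.smul_def, mul_comm]
      rw [this]
      simp [mul_comm]
    · intro h
      choose c hc using h
      refine ⟨e.symm v, ⟨e.symm c, ?_⟩, by simp⟩
      have : v = a • c := by
        ext i
        simp [← hc i, mul_comm]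
      rw [this, map_smul, Algebra.smul_def, mul_comm]
  calc Nat.card (O' ⧸ Ideal.span {algebraMap O O' a})
      = Nat.card (O' ⧸ (Ideal.span {algebraMap O O' a}).restrictScalars O) :=
        Nat.card_congr (Submodule.Quotient.restrictScalarsEquiv O _).symm.toEquiv
    _ = Nat.card ((Fin (Module.finrank O O') → O) ⧸
          Submodule.pi Set.univ (fun _ : Fin (Module.finrank O O') => Ideal.span {a})) :=
        Nat.card_congr (Submodule.Quotient.equiv _ _ e hmap).toEquiv
    _ = Nat.card (Fin (Module.finrank O O') → O ⧸ Ideal.span {a}) :=
        Nat.card_congr (Submodule.quotientPi _).toEquiv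
    _ = _ := by rw [Nat.card_fun, Nat.card_fin]

end Fermat.Agent.S55.LOC
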