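import Mathlib

/-!
# S55-LOC (ALG layer) : two index lemmas for the `p`-th power map of a commutative group
-/

namespace Fermat.Agent.S55.LOC

variable {A : Type*} [CommGroup A]

/-- (Q1) `B ≤ A` of finite index without `p`-torsion:
`[A : A^p] = #A[p] · [B : B^p]`  (indices with the convention `∞ = 0`).
[`Subgroup.index_map`: `[A:B^p] = [A : B·A[p]]·[A:A^p]`; `[A:B^p] = [A:B][B:B^p]`;
`[A:B] = [A:B·A[p]]·[B·A[p]:B]`, `[B·A[p]:B] = #A[p]` as `A[p] ∩ B = 1`.] -/
theorem index_pow_eq_of_finiteIndex (p : ℕ) (B : Subgroup A) (hB : B.index ≠ 0)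
    (htors : ∀ b ∈ B, b ^ p = 1 → b = 1) :
    (powMonoidHom p : A →* A).range.index =
      Nat.card (powMonoidHom p : A →* A).ker * (B.map (powMonoidHom p : A →* A)).relIndex B := by
  set F : A →* A := powMonoidHom p with hF
  have h1 : (B.map F).index = (B ⊔ F.ker).index * F.range.index := Subgroup.index_map B F
  have hle : B.map F ≤ B := by
    rintro _ ⟨b, hb, rfl⟩
    exact B.pow_mem hb p
  have h2 : (B.map F).relIndex B * B.index = (B.map F).index := Subgroup.relIndex_mul_index hle
  have h3 : B.relIndex (B ⊔ F.ker) * (B ⊔ F.ker).index = B.index :=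
    Subgroup.relIndex_mul_index le_sup_left
  have h4 : B.relIndex (B ⊔ F.ker) = Nat.card F.ker := by
    rw [Subgroup.relIndex_sup_left, ← Subgroup.inf_relIndex_right]
    have : B ⊓ F.ker = ⊥ := by
      rw [eq_bot_iff]
      rintro x ⟨hx1, hx2⟩
      exact htors x hx1 hx2
    rw [this, Subgroup.relIndex_bot_left]
  have h5 : (B ⊔ F.ker).index ≠ 0 := by
    intro h0
    rw [h0, mul_zero] at h3
    exact hB h3.symm
  rw [h4] at h3
  rw [← h3, h1] at h2
  have h6 : (B ⊔ F.ker).index * (Nat.card F.ker * (B.map F).relIndex B) =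
      (B ⊔ F.ker).index * F.range.index := by
    rw [← h2]; ring
  exact (Nat.eq_of_mul_eq_mul_left (Nat.pos_of_ne_zero h5) h6).symm

/-- (Q2) `v : A → ℤ` surjective with kernel `B`: `[A : A^p] = p · [B : B^p]`. -/
theorem index_pow_eq_of_surjective_int (p : ℕ) (hp : p ≠ 0) (v : A →* Multiplicative ℤ)
    (hv : Function.Surjective v) :
    (powMonoidHom p : A →* A).range.index =
      p * (v.ker.map (powMonoidHom p : A →* A)).relIndex v.ker := by
  set F : A →* A := powMonoidHom p with hF
  have h1 : F.range.relIndex (F.range ⊔ v.ker) * (F.range ⊔ v.ker).index = F.range.index :=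
    Subgroup.relIndex_mul_index le_sup_left
  have h2 : F.range.relIndex (F.range ⊔ v.ker) = (v.ker.map F).relIndex v.ker := by
    rw [Subgroup.relIndex_sup_left, ← Subgroup.inf_relIndex_right]
    congr 1
    ext x
    constructor
    · rintro ⟨⟨y, rfl⟩, hx⟩
      refine ⟨y, ?_, rfl⟩
      have hx' : v (y ^ p) = 1 := hx
      rw [map_pow] at hx'
      have h3 : p • Multiplicative.toAdd (v y) = 0 := by
        rw [← toAdd_pow, hx', toAdd_one]
      have h4 : Multiplicative.toAdd (v y) = 0 := by
        rcases smul_eq_zero.1 h3 with h | h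
        · exact absurd h hp
        · exact h
      exact Multiplicative.toAdd.injective h4
    · rintro ⟨y, hy, rfl⟩
      exact ⟨⟨y, rfl⟩, v.ker.pow_mem hy p⟩
  have h3 : (F.range ⊔ v.ker).index = p := by
    have : NeZero p := ⟨hp⟩
    let w : A →* Multiplicative (ZMod p) :=
      (AddMonoidHom.toMultiplicative (Int.castAddHom (ZMod p))).comp v
    have hw : ∀ a, w a = Multiplicative.ofAdd ((Multiplicative.toAdd (v a) : ℤ) : ZMod p) :=
      fun _ => rfl
    have hws : Function.Surjective w := by
      intro z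
      obtain ⟨k, hk⟩ := ZMod.intCast_surjective (Multiplicative.toAdd z)
      obtain ⟨a, ha⟩ := hv (Multiplicative.ofAdd k)
      refine ⟨a, ?_⟩
      rw [hw, ha, toAdd_ofAdd, hk, ofAdd_toAdd]
    have hker : F.range ⊔ v.ker = w.ker := by
      apply le_antisymm
      · rw [sup_le_iff]
        constructor
        · rintro _ ⟨y, rfl⟩
          change w (y ^ p) = 1
          rw [map_pow]
          apply Multiplicative.toAdd.injective
          rw [toAdd_pow, toAdd_one, nsmul_eq_mul, ZMod.natCast_self, zero_mul]
        · intro x hx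
          have hx' : v x = 1 := hx
          change w x = 1
          rw [hw, hx', toAdd_one, Int.cast_zero, ofAdd_zero]
      · intro x hx
        have hx' : w x = 1 := hx
        rw [hw] at hx'
        have h0 : ((Multiplicative.toAdd (v x) : ℤ) : ZMod p) = 0 :=
          Multiplicative.ofAdd.injective hx'
        rw [ZMod.intCast_zmod_eq_zero_iff_dvd] at h0
        obtain ⟨k, hk⟩ := h0
        obtain ⟨y, hy⟩ := hv (Multiplicative.ofAdd k)
        have hmem : x * (y ^ p)⁻¹ ∈ v.ker := by
          change v (x * (y ^ p)⁻¹) = 1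
          apply Multiplicative.toAdd.injective
          rw [map_mul, map_inv, map_pow, hy, toAdd_mul, toAdd_inv, toAdd_pow, toAdd_ofAdd, hk,
            toAdd_one, nsmul_eq_mul]
          ring
        have : x = y ^ p * (x * (y ^ p)⁻¹) := by
          rw [mul_comm x, mul_inv_cancel_left]
        rw [this]
        exact Subgroup.mul_mem_sup ⟨y, rfl⟩ hmem
    rw [hker, Subgroup.index_ker, MonoidHom.range_eq_top.2 hws, Nat.card_congr
      (Subgroup.topEquiv (G := Multiplicative (ZMod p))).toEquiv,
      Nat.card_congr (Multiplicative.toAdd (α := ZMod p)), Nat.card_zmod]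
  rw [← h1, h2, h3, mul_comm]

end Fermat.Agent.S55.LOC
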