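import Fermat.Agent.S55.LOC.Alg.Defs
import Fermat.Agent.S55.LOC.Alg.Hensel

/-!
# S55-LOC (ALG layer) : (A3) `u ↦ u^p` is a bijection `U_n → U_{n+e}` if `(p) = 𝔪^e`, `e < n`

`O` a complete DVR.  `e = 0` (residue characteristic `≠ p`) is allowed.
-/

namespace Fermat.Agent.S55.LOC

open IsLocalRing

/-- binomial expansion of `(1+y)^p` in the shape needed here (any commutative ring). -/
theorem unitsPow_one_add_pow {R : Type*} [CommRing R] {p : ℕ} (hp : p.Prime) (y : R) :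
    ∃ r : R, (1 + y) ^ p = 1 + y ^ p + p * y * (1 + y * r) := by
  have h := add_pow_prime_eq hp y (1 : R)
  have h1 : 1 ∈ Finset.Ioo 0 p := Finset.mem_Ioo.2 ⟨Nat.one_pos, hp.one_lt⟩
  rw [← Finset.add_sum_erase _ _ h1] at h
  have hc : ((p.choose 1 / p : ℕ) : R) = 1 := by
    rw [Nat.choose_one_right, Nat.div_self hp.pos, Nat.cast_one]
  have h2 : ∑ k ∈ (Finset.Ioo 0 p).erase 1, y ^ (k - 1) * (1 : R) ^ (p - k - 1) * ((p.choose k / p : ℕ) : R)
      = y * ∑ k ∈ (Finset.Ioo 0 p).erase 1, y ^ (k - 2) * ((p.choose k / p : ℕ) : R) := by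
    rw [Finset.mul_sum]
    refine Finset.sum_congr rfl fun k hk => ?_
    have hk1 : k ≠ 1 := (Finset.mem_erase.1 hk).1
    have hk0 : 0 < k := (Finset.mem_Ioo.1 (Finset.mem_erase.1 hk).2).1
    have : k - 1 = (k - 2) + 1 := by omega
    rw [this, pow_succ, one_pow]
    ring
  refine ⟨∑ k ∈ (Finset.Ioo 0 p).erase 1, y ^ (k - 2) * ((p.choose k / p : ℕ) : R), ?_⟩
  rw [add_comm 1 y, h, h2, hc]
  simp only [Nat.sub_self, pow_zero, one_pow, mul_one]
  ring

variable {O : Type*} [CommRing O] [IsDomain O] [IsDiscreteValuationRing O]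

/-- if `(p) = 𝔪^e`, `e < n`, `x ∈ 𝔪^n`, `1 ≤ m` then `x^m ∈ p 𝔪`. -/
theorem unitsPow_pow_eq_mul {p e n m : ℕ}
    (he : Ideal.span {(p : O)} = maximalIdeal O ^ e) (hn : e < n) (hm : 1 ≤ m)
    {x : O} (hx : x ∈ maximalIdeal O ^ n) :
    ∃ z ∈ maximalIdeal O, x ^ m = p * z := by
  have h1 : x ^ m ∈ maximalIdeal O ^ (e + 1) := by
    have h2 : x ^ m ∈ (maximalIdeal O ^ n) ^ m := Ideal.pow_mem_pow hx m
    rw [← pow_mul] at h2
    refine Ideal.pow_le_pow_right ?_ h2
    nlinarith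
  rw [pow_succ, ← he, Ideal.mem_span_singleton_mul] at h1
  obtain ⟨z, hz, hzx⟩ := h1
  exact ⟨z, hz, hzx.symm⟩

/-- valuation computation: if `(p) = 𝔪^e`, `e < n`, `x ∈ 𝔪^n` then
`(1+x)^p - 1 = p x (1 + y)` with `y ∈ 𝔪`.
[`(1+x)^p - 1 = p x + ∑_{2 ≤ k < p} C(p,k) x^k + x^p`, `p ∣ C(p,k)`, `x^(p-1) ∈ 𝔪^n ⊆ p 𝔪`.] -/
theorem one_add_pow_sub_one {p e n : ℕ} (hp : p.Prime)
    (he : Ideal.span {(p : O)} = maximalIdeal O ^ e) (hn : e < n)
    {x : O} (hx : x ∈ maximalIdeal O ^ n) :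
    ∃ y ∈ maximalIdeal O, (1 + x) ^ p - 1 = p * x * (1 + y) := by
  obtain ⟨r, hr⟩ := unitsPow_one_add_pow hp x
  obtain ⟨z, hz, hzx⟩ := unitsPow_pow_eq_mul (m := p - 1) he hn
    (Nat.le_sub_one_of_lt hp.one_lt) hx
  have hx1 : x ∈ maximalIdeal O := Ideal.pow_le_self (by omega) hx
  refine ⟨x * r + z, Ideal.add_mem _ (Ideal.mul_mem_right _ _ hx1) hz, ?_⟩
  have hpp : x ^ p = x * x ^ (p - 1) := by
    rw [← pow_succ', Nat.sub_add_cancel hp.one_lt.le]
  rw [hr, hpp, hzx]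
  ring

theorem pow_mem_unitFil {p e n : ℕ} (hp : p.Prime)
    (he : Ideal.span {(p : O)} = maximalIdeal O ^ e) (hn : e < n)
    {u : Oˣ} (hu : u ∈ unitFil O n) : u ^ p ∈ unitFil O (n + e) := by
  rw [mem_unitFil_iff] at hu ⊢
  obtain ⟨y, -, hy⟩ := one_add_pow_sub_one hp he hn hu
  have : ((u ^ p : Oˣ) : O) - 1 = (1 + ((u : O) - 1)) ^ p - 1 := by
    rw [Units.val_pow_eq_pow_val]; ring
  rw [this, hy, add_comm n e, pow_add, ← he]
  exact Ideal.mul_mem_right _ _
    (Ideal.mul_mem_mul (Ideal.mem_span_singleton_self _) hu)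

/-- `(p : O) ≠ 0` follows from `(p) = 𝔪^e`. -/
theorem unitsPow_cast_ne_zero {p e : ℕ}
    (he : Ideal.span {(p : O)} = maximalIdeal O ^ e) : (p : O) ≠ 0 := by
  intro h
  rw [h, Ideal.span_singleton_zero] at he
  have h0 : maximalIdeal O ^ e = 0 := he.symm
  exact IsDiscreteValuationRing.not_a_field O (eq_zero_of_pow_eq_zero h0)

/-- `U_n` has no `p`-torsion for `n > e` (`(p : O) ≠ 0` follows from `he`). -/
theorem eq_one_of_pow_eq_one {p e n : ℕ} (hp : p.Prime)
    (he : Ideal.span {(p : O)} = maximalIdeal O ^ e) (hn : e < n)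
    {u : Oˣ} (hu : u ∈ unitFil O n) (h : u ^ p = 1) : u = 1 := by
  rw [mem_unitFil_iff] at hu
  obtain ⟨y, hy, hyy⟩ := one_add_pow_sub_one hp he hn hu
  have h1 : (1 + ((u : O) - 1)) ^ p - 1 = 0 := by
    have : ((u ^ p : Oˣ) : O) = 1 := by rw [h]; rfl
    rw [Units.val_pow_eq_pow_val] at this
    rw [add_sub_cancel, this, sub_self]
  rw [h1] at hyy
  have hy1 : (1 + y) ≠ 0 := by
    intro h0
    have : (1 : O) ∈ maximalIdeal O := by
      have h2 : (1 : O) = -y := by linear_combination h0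
      rw [h2]; exact (Ideal.neg_mem_iff _).2 hy
    exact (Ideal.ne_top_iff_one _).1 (maximalIdeal.isMaximal O).ne_top this
  have h3 : (u : O) - 1 = 0 := by
    rcases mul_eq_zero.1 hyy.symm with h4 | h4
    · rcases mul_eq_zero.1 h4 with h5 | h5
      · exact absurd h5 (unitsPow_cast_ne_zero he)
      · exact h5
    · exact absurd h4 hy1
  exact Units.ext (by simpa using sub_eq_zero.1 h3)

/-- surjectivity of `U_n → U_{n+e}` (Hensel): write `v = 1 + p ϖ^n c`, look for `u = 1 + ϖ^n t`;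
the equation is `t + ∑_{2 ≤ k < p} (C(p,k)/p) ϖ^(n(k-1)) t^k + (ϖ^(n(p-1))/p) t^p = c`, whose
derivative is `≡ 1 mod 𝔪`. -/
theorem exists_pow_eq_of_mem_unitFil [IsAdicComplete (maximalIdeal O) O] {p e n : ℕ} (hp : p.Prime)
    (he : Ideal.span {(p : O)} = maximalIdeal O ^ e) (hn : e < n)
    {v : Oˣ} (hv : v ∈ unitFil O (n + e)) : ∃ u ∈ unitFil O n, u ^ p = v := by
  classical
  obtain ⟨ϖ, hϖ⟩ := IsDiscreteValuationRing.exists_irreducible O
  have hm : maximalIdeal O = Ideal.span {ϖ} := hϖ.maximalIdeal_eq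
  set a : O := ϖ ^ n with ha
  have han : a ∈ maximalIdeal O ^ n := by
    rw [hm, Ideal.span_singleton_pow]; exact Ideal.mem_span_singleton_self _
  have ha1 : a ∈ maximalIdeal O := Ideal.pow_le_self (by omega) han
  -- `v = 1 + p a c`
  rw [mem_unitFil_iff, add_comm n e, pow_add, ← he, hm, Ideal.span_singleton_pow,
    Ideal.span_singleton_mul_span_singleton, Ideal.mem_span_singleton'] at hv
  obtain ⟨c, hc⟩ := hv
  -- `a^(p-1) = p b`
  obtain ⟨b, hb, hab⟩ := unitsPow_pow_eq_mul (m := p - 1) he hn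
    (Nat.le_sub_one_of_lt hp.one_lt) han
  obtain ⟨r, hr⟩ := unitsPow_one_add_pow hp (Polynomial.C a * Polynomial.X : Polynomial O)
  set g : Polynomial O :=
    Polynomial.C a * (Polynomial.X ^ 2 * r) + Polynomial.C b * Polynomial.X ^ p with hg
  have hpoly : (1 + Polynomial.C a * Polynomial.X : Polynomial O) ^ p - 1
      = Polynomial.C ((p : O) * a) * (Polynomial.X + g) := by
    have hpp : (Polynomial.C a * Polynomial.X : Polynomial O) ^ p
        = Polynomial.C ((p : O) * a) * (Polynomial.C b * Polynomial.X ^ p) := by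
      rw [mul_pow, ← Polynomial.C_pow, ← mul_assoc, ← Polynomial.C_mul]
      congr 2
      have : a ^ p = a * a ^ (p - 1) := by
        rw [← pow_succ', Nat.sub_add_cancel hp.one_lt.le]
      rw [this, hab]; ring
    rw [hr, hpp, hg, Polynomial.C_mul, Polynomial.C_eq_natCast]
    ring
  set φ := Ideal.Quotient.mk (maximalIdeal O) with hφ
  have hφa : φ a = 0 := Ideal.Quotient.eq_zero_iff_mem.2 ha1
  have hφb : φ b = 0 := Ideal.Quotient.eq_zero_iff_mem.2 hb
  have hgmap : g.map φ = 0 := by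
    rw [hg]
    simp [Polynomial.map_add, Polynomial.map_mul, hφa, hφb]
  set f : Polynomial O := Polynomial.X + g - Polynomial.C c with hf
  have hfmap : f.map φ = Polynomial.X - Polynomial.C (φ c) := by
    rw [hf]
    simp [Polynomial.map_sub, Polynomial.map_add, hgmap]
  have h₁ : f.eval c ∈ maximalIdeal O := by
    rw [← Ideal.Quotient.eq_zero_iff_mem, ← hφ, ← Polynomial.eval_map_apply, hfmap]
    simp
  have h₂ : IsUnit (φ (f.derivative.eval c)) := by
    rw [← Polynomial.eval_map_apply, ← Polynomial.derivative_map, hfmap]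
    simp
  obtain ⟨t, ht, -⟩ := hensel_nonmonic (maximalIdeal O) f c h₁ h₂
  have ht' : t + g.eval t = c := by
    have : f.eval t = 0 := ht
    rw [hf] at this
    simp only [Polynomial.eval_sub, Polynomial.eval_add, Polynomial.eval_X,
      Polynomial.eval_C] at this
    exact sub_eq_zero.1 this
  have hev : (1 + a * t) ^ p - 1 = (p : O) * a * c := by
    have := congrArg (Polynomial.eval t) hpoly
    simp only [Polynomial.eval_sub, Polynomial.eval_pow, Polynomial.eval_add, Polynomial.eval_one,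
      Polynomial.eval_mul, Polynomial.eval_C, Polynomial.eval_X] at this
    rw [this, ht']
  obtain ⟨u, hu, huv⟩ := exists_unitFil_eq_one_add (O := O) (n := n) (by omega)
    (x := a * t) (Ideal.mul_mem_right _ _ han)
  refine ⟨u, hu, Units.ext ?_⟩
  rw [Units.val_pow_eq_pow_val, huv]
  have h3 : (v : O) = 1 + c * ((p : O) * ϖ ^ n) := by rw [hc]; ring
  rw [h3, ← ha]
  linear_combination hev

/-- (A3) in subgroup form: `(U_n)^p = U_{n+e}`. -/
theorem map_pow_unitFil [IsAdicComplete (maximalIdeal O) O] {p e n : ℕ} (hp : p.Prime)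
    (he : Ideal.span {(p : O)} = maximalIdeal O ^ e) (hn : e < n) :
    (unitFil O n).map (powMonoidHom p : Oˣ →* Oˣ) = unitFil O (n + e) := by
  ext v
  constructor
  · rintro ⟨u, hu, rfl⟩
    exact pow_mem_unitFil hp he hn hu
  · intro hv
    obtain ⟨u, hu, huv⟩ := exists_pow_eq_of_mem_unitFil hp he hn hv
    exact ⟨u, hu, huv⟩

end Fermat.Agent.S55.LOC
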