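import Fermat.Agent.S55.LOC.Alg.UnitsIndex
import Fermat.Agent.S55.LOC.Alg.UnitsPow
import Fermat.Agent.S55.LOC.Alg.GroupIndex

/-!
# S55-LOC (ALG layer) : **(A)** `[Fˣ : Fˣ^p] = #μ_p(F) · p · #(O/pO)`

`F = Frac O`, `O` a complete DVR with finite residue field, of characteristic zero, `p` any prime
(equal to the residue characteristic or not).
-/

namespace Fermat.Agent.S55.LOC

open IsLocalRing

variable (O : Type*) [CommRing O] [IsDomain O] [IsDiscreteValuationRing O]
  [IsAdicComplete (maximalIdeal O) O] [Finite (ResidueField O)] [CharZero O]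

omit [IsAdicComplete (maximalIdeal O) O] [Finite (ResidueField O)] in
/-- `(p) = 𝔪^e` for some `e`. -/
theorem powIndex_exists_span_eq (p : ℕ) (hp : p.Prime) :
    ∃ e : ℕ, Ideal.span {(p : O)} = maximalIdeal O ^ e := by
  obtain ⟨ϖ, hϖ⟩ := IsDiscreteValuationRing.exists_irreducible O
  have hp0 : (p : O) ≠ 0 := Nat.cast_ne_zero.2 hp.ne_zero
  have hne : Ideal.span {(p : O)} ≠ ⊥ := by
    rwa [Ne, Ideal.span_singleton_eq_bot]
  obtain ⟨e, he⟩ := IsDiscreteValuationRing.ideal_eq_span_pow_irreducible hne hϖ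
  exact ⟨e, by rw [he, hϖ.maximalIdeal_eq, Ideal.span_singleton_pow]⟩

omit [IsAdicComplete (maximalIdeal O) O] in
theorem card_quot_span_ne_zero (p : ℕ) (hp : p.Prime) :
    Nat.card (O ⧸ Ideal.span {(p : O)}) ≠ 0 := by
  obtain ⟨e, he⟩ := powIndex_exists_span_eq O p hp
  rw [he]
  have := finite_quot_maximalIdeal_pow O e
  exact Nat.card_ne_zero.2 ⟨⟨0⟩, this⟩

/-- `[Oˣ : Oˣ^p] = #μ_p(O) · #(O/pO)`.
[`(p) = 𝔪^e`, `n = e + 1`, `B = U_n`: (Q1), (A1), (A2), (A3).] -/
theorem index_pow_units_dvr (p : ℕ) (hp : p.Prime) :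
    (powMonoidHom p : Oˣ →* Oˣ).range.index =
      Nat.card (powMonoidHom p : Oˣ →* Oˣ).ker * Nat.card (O ⧸ Ideal.span {(p : O)}) := by
  obtain ⟨e, he⟩ := powIndex_exists_span_eq O p hp
  rw [index_pow_eq_of_finiteIndex p (unitFil O (e + 1)) (unitFil_index_ne_zero O (e + 1))
    (fun b hb h => eq_one_of_pow_eq_one hp he (Nat.lt_succ_self e) hb h),
    map_pow_unitFil hp he (Nat.lt_succ_self e),
    relIndex_unitFil O (Nat.succ_le_succ (Nat.zero_le e)) (Nat.le_succ e), he]

variable (F : Type*) [Field F] [Algebra O F] [IsFractionRing O F]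

omit [IsAdicComplete (maximalIdeal O) O] [Finite (ResidueField O)] [CharZero O] in
/-- The valuation `Fˣ → ℤ` (surjective, kernel = image of `Oˣ`). -/
theorem exists_ord : ∃ v : Fˣ →* Multiplicative ℤ, Function.Surjective v ∧
    v.ker = (Units.map (algebraMap O F : O →* F)).range := by
  let w := (IsDiscreteValuationRing.maximalIdeal O).valuation F
  let v : Fˣ →* Multiplicative ℤ :=
    (WithZero.unitsWithZeroEquiv (α := Multiplicative ℤ)).toMonoidHom.comp
      (Units.map (w : F →* WithZero (Multiplicative ℤ)))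
  have hv : ∀ x : Fˣ, ((v x : Multiplicative ℤ) : WithZero (Multiplicative ℤ)) = w x := fun x =>
    WithZero.coe_unitsWithZeroEquiv_eq_units_val _
  refine ⟨v, ?_, ?_⟩
  · obtain ⟨π, hπ⟩ :=
      IsDedekindDomain.HeightOneSpectrum.valuation_exists_uniformizer F
        (IsDiscreteValuationRing.maximalIdeal O)
    have hπ0 : π ≠ 0 := by
      rintro rfl
      rw [map_zero] at hπ
      exact WithZero.coe_ne_zero hπ.symm
    have h1 : v (Units.mk0 π hπ0) = Multiplicative.ofAdd (-1 : ℤ) := by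
      apply WithZero.coe_injective
      rw [hv]
      exact hπ
    intro y
    refine ⟨(Units.mk0 π hπ0) ^ (-(Multiplicative.toAdd y)), ?_⟩
    rw [map_zpow, h1, ← ofAdd_zsmul]
    simp
  · ext x
    have hker := IsDiscreteValuationRing.mker_valuation_eq_isUnitSubmonoid (A := O) (K := F)
    have hx : x ∈ v.ker ↔ (x : F) ∈ MonoidHom.mker w := by
      rw [MonoidHom.mem_ker, MonoidHom.mem_mker, ← hv, ← WithZero.coe_one, WithZero.coe_inj]
    rw [hx, hker, Submonoid.mem_map, MonoidHom.mem_range]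
    constructor
    · rintro ⟨a, ha, hax⟩
      exact ⟨IsUnit.unit ha, Units.ext hax⟩
    · rintro ⟨u, rfl⟩
      exact ⟨u, u.isUnit, rfl⟩

omit [IsAdicComplete (maximalIdeal O) O] [Finite (ResidueField O)] [CharZero O] in
/-- `#μ_p(O) = #μ_p(F)`. -/
theorem powIndex_card_ker_eq (p : ℕ) (hp : p ≠ 0) :
    Nat.card (powMonoidHom p : Oˣ →* Oˣ).ker = Nat.card (powMonoidHom p : Fˣ →* Fˣ).ker := by
  obtain ⟨v, -, hker⟩ := exists_ord O F
  have hinj : Function.Injective (Units.map (algebraMap O F : O →* F)) :=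
    Units.map_injective (IsFractionRing.injective O F)
  refine Nat.card_congr (Equiv.ofBijective
    (fun u => ⟨Units.map (algebraMap O F : O →* F) u.1, ?_⟩) ⟨?_, ?_⟩)
  · have hu : u.1 ^ p = 1 := u.2
    change (Units.map (algebraMap O F : O →* F) u.1) ^ p = 1
    rw [← map_pow, hu, map_one]
  · intro a b hab
    exact Subtype.ext (hinj (congrArg Subtype.val hab))
  · rintro ⟨x, hx⟩
    have hx' : x ^ p = 1 := hx
    have hvx : x ∈ v.ker := by
      rw [MonoidHom.mem_ker]
      have h1 : (v x) ^ p = 1 := by rw [← map_pow, hx', map_one]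
      have h2 : p • Multiplicative.toAdd (v x) = 0 := h1
      rw [nsmul_eq_mul, mul_eq_zero] at h2
      rcases h2 with h2 | h2
      · exact absurd (by exact_mod_cast h2) hp
      · exact h2
    rw [hker] at hvx
    obtain ⟨u, rfl⟩ := hvx
    refine ⟨⟨u, ?_⟩, rfl⟩
    change u ^ p = 1
    apply hinj
    rw [map_pow, hx', map_one]

/-- **(A)** `[Fˣ : Fˣ^p] = #μ_p(F) · p · #(O/pO)`. -/
theorem index_pow_units_field (p : ℕ) (hp : p.Prime) :
    (powMonoidHom p : Fˣ →* Fˣ).range.index =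
      Nat.card (powMonoidHom p : Fˣ →* Fˣ).ker * p * Nat.card (O ⧸ Ideal.span {(p : O)}) := by
  obtain ⟨v, hv, hker⟩ := exists_ord O F
  have hinj : Function.Injective (Units.map (algebraMap O F : O →* F)) :=
    Units.map_injective (IsFractionRing.injective O F)
  have h1 : (v.ker.map (powMonoidHom p : Fˣ →* Fˣ)) =
      (powMonoidHom p : Oˣ →* Oˣ).range.map (Units.map (algebraMap O F : O →* F)) := by
    rw [hker]
    ext x
    simp only [Subgroup.mem_map, MonoidHom.mem_range]
    constructor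
    · rintro ⟨_, ⟨u, rfl⟩, rfl⟩
      exact ⟨u ^ p, ⟨u, rfl⟩, map_pow _ u p⟩
    · rintro ⟨_, ⟨u, rfl⟩, rfl⟩
      exact ⟨_, ⟨u, rfl⟩, (map_pow _ u p).symm⟩
  rw [index_pow_eq_of_surjective_int p hp.ne_zero v hv, h1, hker, MonoidHom.range_eq_map
    (Units.map (algebraMap O F : O →* F)), Subgroup.relIndex_map_map_of_injective _ _ hinj,
    Subgroup.relIndex_top_right, index_pow_units_dvr O p hp, powIndex_card_ker_eq O F p hp.ne_zero]
  ring

include O in
/-- `Fˣ/Fˣ^p` is finite. -/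
theorem index_pow_units_field_ne_zero (p : ℕ) (hp : p.Prime) :
    (powMonoidHom p : Fˣ →* Fˣ).range.index ≠ 0 := by
  rw [index_pow_units_field O F p hp]
  have : NeZero p := ⟨hp.ne_zero⟩
  have hfin : Finite (powMonoidHom p : Fˣ →* Fˣ).ker := by
    have : Finite (rootsOfUnity p F) := inferInstance
    exact this
  exact mul_ne_zero (mul_ne_zero (Nat.card_ne_zero.2 ⟨⟨1⟩, hfin⟩) hp.ne_zero)
    (card_quot_span_ne_zero O p hp)

end Fermat.Agent.S55.LOC
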