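import Fermat.Agent.S55.LOC.Alg.Defs

/-!
# S55-LOC (ALG layer) : indices in the unit filtration of a DVR with finite residue field

* (A1) `Oˣ / U_n` is finite;
* (A2) `[U_n : U_{n+e}] = #(O / 𝔪^e)` for `1 ≤ n`, `e ≤ n`.
-/

namespace Fermat.Agent.S55.LOC

open IsLocalRing

variable (O : Type*) [CommRing O] [IsDomain O] [IsDiscreteValuationRing O]
  [Finite (ResidueField O)]

/-- `O/𝔪^n` is finite. -/
theorem finite_quot_maximalIdeal_pow (n : ℕ) : Finite (O ⧸ maximalIdeal O ^ n) := by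
  have : Finite (O ⧸ maximalIdeal O) := ‹Finite (ResidueField O)›
  exact Ideal.finite_quotient_pow (IsNoetherian.noetherian (maximalIdeal O)) n

/-- (A1) -/
theorem finite_quot_unitFil (n : ℕ) : Finite (Oˣ ⧸ unitFil O n) := by
  have := finite_quot_maximalIdeal_pow O n
  exact Finite.of_injective _ (QuotientGroup.kerLift_injective
    (Units.map (Ideal.Quotient.mk (maximalIdeal O ^ n) : O →* O ⧸ maximalIdeal O ^ n)))

theorem unitFil_index_ne_zero (n : ℕ) : (unitFil O n).index ≠ 0 := by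
  have := finite_quot_unitFil O n
  exact Subgroup.index_ne_zero_of_finite

/-- (A2) `[U_n : U_{n+e}] = #(O/𝔪^e)` for `1 ≤ n`, `e ≤ n`
(`u ↦ u - 1` is a homomorphism `U_n → 𝔪^n/𝔪^{n+e}` because `2n ≥ n+e`; multiplication by `ϖ^n`
identifies `O/𝔪^e` with `𝔪^n/𝔪^{n+e}`). -/
theorem relIndex_unitFil {n e : ℕ} (hn : 1 ≤ n) (he : e ≤ n) :
    (unitFil O (n + e)).relIndex (unitFil O n) = Nat.card (O ⧸ maximalIdeal O ^ e) := by
  obtain ⟨ϖ, hϖ⟩ := IsDiscreteValuationRing.exists_irreducible O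
  have hm : maximalIdeal O = Ideal.span {ϖ} := hϖ.maximalIdeal_eq
  have hmk : ∀ k, maximalIdeal O ^ k = Ideal.span {ϖ ^ k} := by
    intro k
    rw [hm, Ideal.span_singleton_pow]
  have hϖ0 : ∀ k, ϖ ^ k ≠ 0 := fun k => pow_ne_zero k hϖ.ne_zero
  have hex : ∀ u : unitFil O n, ∃ c : O, ((u : Oˣ) : O) - 1 = ϖ ^ n * c := by
    intro u
    have := mem_unitFil_iff.mp u.2
    rw [hmk, Ideal.mem_span_singleton] at this
    exact this
  choose c hc using hex
  have hmul : ∀ u v : unitFil O n, c (u * v) = c u + c v + ϖ ^ n * (c u * c v) := by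
    intro u v
    apply mul_left_cancel₀ (hϖ0 n)
    rw [← hc]
    have e1 : (((u * v : unitFil O n) : Oˣ) : O) = ((u : Oˣ) : O) * ((v : Oˣ) : O) := by
      simp
    rw [e1]
    have hu : ((u : Oˣ) : O) = 1 + ϖ ^ n * c u := by linear_combination hc u
    have hv : ((v : Oˣ) : O) = 1 + ϖ ^ n * c v := by linear_combination hc v
    rw [hu, hv]
    ring
  let φ : unitFil O n →* Multiplicative (O ⧸ maximalIdeal O ^ e) :=
    MonoidHom.mk' (fun u => Multiplicative.ofAdd (Ideal.Quotient.mk _ (c u))) (by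
      intro u v
      rw [← ofAdd_add, ← map_add]
      congr 1
      rw [Ideal.Quotient.eq, hmul, hmk, Ideal.mem_span_singleton]
      refine ⟨ϖ ^ (n - e) * (c u * c v), ?_⟩
      have hpe : ϖ ^ n = ϖ ^ e * ϖ ^ (n - e) := by rw [← pow_add, Nat.add_sub_cancel' he]
      rw [hpe]
      ring)
  have hφ : ∀ u, φ u = Multiplicative.ofAdd (Ideal.Quotient.mk _ (c u)) := fun _ => rfl
  have hker : (unitFil O (n + e)).subgroupOf (unitFil O n) = φ.ker := by
    ext u
    rw [Subgroup.mem_subgroupOf, MonoidHom.mem_ker, hφ, mem_unitFil_iff, hc, ofAdd_eq_one,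
      Ideal.Quotient.eq_zero_iff_mem, hmk, hmk, Ideal.mem_span_singleton, Ideal.mem_span_singleton,
      pow_add]
    exact mul_dvd_mul_iff_left (hϖ0 n)
  have hsurj : Function.Surjective φ := by
    intro y
    obtain ⟨a, ha⟩ := Ideal.Quotient.mk_surjective (Multiplicative.toAdd y)
    have hx : ϖ ^ n * a ∈ maximalIdeal O ^ n := by
      rw [hmk, Ideal.mem_span_singleton]
      exact Dvd.intro a rfl
    obtain ⟨u, hu, hu'⟩ := exists_unitFil_eq_one_add hn hx
    refine ⟨⟨u, hu⟩, ?_⟩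
    have : c ⟨u, hu⟩ = a := by
      apply mul_left_cancel₀ (hϖ0 n)
      rw [← hc]
      simp [hu']
    rw [hφ, this, ha]
    rfl
  rw [Subgroup.relIndex, hker, Subgroup.index_ker, MonoidHom.range_eq_top.mpr hsurj,
    Nat.card_congr (Subgroup.topEquiv (G := Multiplicative (O ⧸ maximalIdeal O ^ e))).toEquiv]
  rfl

end Fermat.Agent.S55.LOC
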